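import Mathlib
import Fermat.Prelude.Def_EllipticCurve_FrobeniusTrace

set_option autoImplicit false

namespace Fermat.Agent.S54

open Polynomial

noncomputable section

section Integrality

variable {R L : Type*} [CommRing R] [Field L] [Algebra R L]

theorem isIntegral_aeval_divX (p : R[X]) (x : L) (h : aeval x p = 0) :
    IsIntegral R (aeval x (divX p)) := by
  have key : aeval x (divX p) * x + algebraMap R L (p.coeff 0) = 0 := by
    have h1 := congrArg (aeval x) (divX_mul_X_add p)
    rw [h] at h1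
    simpa using h1
  by_cases hx : x = 0
  · subst hx
    rw [← coeff_zero_eq_aeval_zero']
    exact isIntegral_algebraMap
  by_cases h0 : p.coeff 0 = 0
  · rw [h0, map_zero, add_zero] at key
    have : aeval x (divX p) = 0 := by
      rcases mul_eq_zero.mp key with h1 | h1
      · exact h1
      · exact absurd h1 hx
    rw [this]
    exact isIntegral_zero
  · have hnt : p.natTrailingDegree = 0 := natTrailingDegree_eq_zero.mpr (Or.inr h0)
    have hlc : p.reverse.leadingCoeff = p.coeff 0 := by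
      rw [reverse_leadingCoeff, trailingCoeff, hnt]
    let _ : Invertible x := invertibleOfNonzero hx
    have hrev : aeval (⅟x) p.reverse = 0 := by
      rw [aeval_def, eval₂_reverse_eq_zero_iff, ← aeval_def, h]
    have hint := isIntegral_leadingCoeff_smul p.reverse (⅟x) hrev
    rw [hlc] at hint
    have heq : aeval x (divX p) = -(p.coeff 0 • ⅟x) := by
      rw [Algebra.smul_def]
      have hxi : x * ⅟x = 1 := mul_invOf_self x
      have h2 : aeval x (divX p) = -(algebraMap R L (p.coeff 0)) * ⅟x := by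
        have h3 : aeval x (divX p) * x = -(algebraMap R L (p.coeff 0)) := by
          linear_combination key
        calc aeval x (divX p) = aeval x (divX p) * (x * ⅟x) := by rw [hxi, mul_one]
          _ = (aeval x (divX p) * x) * ⅟x := by ring
          _ = -(algebraMap R L (p.coeff 0)) * ⅟x := by rw [h3]
      rw [h2]; ring
    rw [heq]
    exact hint.neg

theorem divX_sub_C (p : R[X]) (r : R) : divX (p - C r) = divX p := by
  ext n
  simp [coeff_divX]

theorem isIntegral_aeval_divX_of_eq (p : R[X]) (x : L) (r : R)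
    (h : aeval x p = algebraMap R L r) : IsIntegral R (aeval x (divX p)) := by
  have h1 : aeval x (p - C r) = 0 := by
    rw [map_sub, aeval_C, h, sub_self]
  have := isIntegral_aeval_divX (p - C r) x h1
  rwa [divX_sub_C] at this

end Integrality

section Iterate

theorem coeff_iterate_divX {R : Type*} [Semiring R] (p : R[X]) (j n : ℕ) :
    (divX^[j] p).coeff n = p.coeff (n + j) := by
  induction j generalizing n with
  | zero => simp
  | succ j ih =>
    rw [Function.iterate_succ_apply', coeff_divX, ih]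
    congr 1
    omega

variable {L : Type*} [Field L]

theorem isIntegral_aeval_iterate_divX (q : ℤ[X]) (x : L) (h : aeval x q = 0) (j : ℕ) :
    IsIntegral ℤ (aeval x (divX^[j] q)) := by
  induction j with
  | zero =>
    rw [Function.iterate_zero, id, h]
    exact isIntegral_zero
  | succ j ih =>
    rw [Function.iterate_succ_apply']
    set P := divX^[j] q with hP
    let b : integralClosure ℤ L := ⟨aeval x P, ih⟩
    have h1 : aeval x (P.map (algebraMap ℤ (integralClosure ℤ L))) =
        algebraMap (integralClosure ℤ L) L b := by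
      rw [aeval_map_algebraMap]
      rfl
    have h2 := isIntegral_aeval_divX_of_eq (P.map (algebraMap ℤ (integralClosure ℤ L))) x b h1
    have h3 : divX (P.map (algebraMap ℤ (integralClosure ℤ L))) =
        (divX P).map (algebraMap ℤ (integralClosure ℤ L)) := by
      ext n
      simp [coeff_divX]
    rw [h3, aeval_map_algebraMap] at h2
    exact isIntegral_trans _ h2

theorem exists_mul_eq_or [CharZero L] (Q : Ideal (integralClosure ℤ L)) [hQp : Q.IsPrime] (ℓ : ℕ)
    (hℓ : ℓ.Prime) (hQ : ((ℓ : ℤ) : integralClosure ℤ L) ∈ Q) (x : L) (hx : IsAlgebraic ℤ x) :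
    (∃ u s : integralClosure ℤ L, s ∉ Q ∧ x * (s : L) = (u : L)) ∨
    (∃ u s : integralClosure ℤ L, s ∉ Q ∧ x⁻¹ * (s : L) = (u : L)) := by
  have h1Q : (1 : integralClosure ℤ L) ∉ Q := fun h => hQp.ne_top (Q.eq_top_iff_one.mpr h)
  by_cases hx0 : x = 0
  · left
    exact ⟨0, 1, h1Q, by simp [hx0]⟩
  obtain ⟨p, hp0, hp⟩ := hx
  have hq : aeval x p.primPart = 0 := aeval_primPart_eq_zero hp0 hp
  have hprim : p.primPart.IsPrimitive := isPrimitive_primPart p
  set q := p.primPart with hqdef
  obtain ⟨k, hk⟩ : ∃ k, ¬ (ℓ : ℤ) ∣ q.coeff k := by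
    by_contra hcon
    push Not at hcon
    have hu := (isPrimitive_iff_isUnit_of_C_dvd.mp hprim) (ℓ : ℤ)
      ((C_dvd_iff_dvd_coeff _ _).mpr hcon)
    exact (Nat.prime_iff_prime_int.mp hℓ).not_isUnit hu
  have hkQ : ((q.coeff k : ℤ) : integralClosure ℤ L) ∉ Q := by
    intro hmem
    have hcop : IsCoprime (ℓ : ℤ) (q.coeff k) :=
      ((Nat.prime_iff_prime_int.mp hℓ).coprime_iff_not_dvd).mpr hk
    obtain ⟨a, b, hab⟩ := hcop
    apply h1Q
    have h1 : ((a * (ℓ : ℤ) + b * q.coeff k : ℤ) : integralClosure ℤ L) ∈ Q := by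
      rw [Int.cast_add, Int.cast_mul, Int.cast_mul]
      exact Q.add_mem (Q.mul_mem_left _ hQ) (Q.mul_mem_left _ hmem)
    rw [hab] at h1
    simpa using h1
  let c : ℕ → integralClosure ℤ L :=
    fun j => ⟨aeval x (divX^[j] q), isIntegral_aeval_iterate_divX q x hq j⟩
  have hrec : ∀ j, (c j : L) = x * (c (j + 1) : L) + ((q.coeff j : ℤ) : L) := by
    intro j
    show aeval x (divX^[j] q) = x * aeval x (divX^[j + 1] q) + _
    rw [Function.iterate_succ_apply']
    have h1 := congrArg (aeval x) (divX_mul_X_add (divX^[j] q))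
    rw [coeff_iterate_divX, zero_add] at h1
    rw [map_add, map_mul, aeval_X, aeval_C, eq_intCast] at h1
    rw [← h1]
    ring
  by_cases hck : c k ∈ Q
  · right
    refine ⟨c (k + 1), c k - ((q.coeff k : ℤ) : integralClosure ℤ L), ?_, ?_⟩
    · intro hmem
      apply hkQ
      have := Q.sub_mem hck hmem
      simpa using this
    · have := hrec k
      push_cast
      rw [this]
      field_simp
      ring
  · left
    have hk0 : k ≠ 0 := by
      rintro rfl
      apply hck
      have : c 0 = 0 := Subtype.ext (by simpa [c] using hq)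
      rw [this]
      exact Q.zero_mem
    obtain ⟨k', rfl⟩ := Nat.exists_eq_succ_of_ne_zero hk0
    refine ⟨c k' - ((q.coeff k' : ℤ) : integralClosure ℤ L), c (k' + 1), hck, ?_⟩
    have := hrec k'
    push_cast
    rw [this]
    ring

def locValuationSubring (Q : Ideal (integralClosure ℤ L)) [hQp : Q.IsPrime]
    (h : ∀ x : L, (∃ u s : integralClosure ℤ L, s ∉ Q ∧ x * (s : L) = (u : L)) ∨
      (∃ u s : integralClosure ℤ L, s ∉ Q ∧ x⁻¹ * (s : L) = (u : L))) : ValuationSubring L where
  carrier := {x | ∃ u s : integralClosure ℤ L, s ∉ Q ∧ x * (s : L) = (u : L)}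
  mul_mem' := by
    rintro x y ⟨u, s, hs, h1⟩ ⟨v, t, ht, h2⟩
    refine ⟨u * v, s * t, fun hst => (hQp.mem_or_mem hst).elim hs ht, ?_⟩
    push_cast
    rw [← h1, ← h2]
    ring
  one_mem' := ⟨1, 1, fun h => hQp.ne_top (Q.eq_top_iff_one.mpr h), by simp⟩
  add_mem' := by
    rintro x y ⟨u, s, hs, h1⟩ ⟨v, t, ht, h2⟩
    refine ⟨u * t + v * s, s * t, fun hst => (hQp.mem_or_mem hst).elim hs ht, ?_⟩
    push_cast
    rw [← h1, ← h2]
    ring
  zero_mem' := ⟨0, 1, fun h => hQp.ne_top (Q.eq_top_iff_one.mpr h), by simp⟩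
  neg_mem' := by
    rintro x ⟨u, s, hs, h1⟩
    refine ⟨-u, s, hs, ?_⟩
    push_cast
    rw [← h1]
    ring
  mem_or_inv_mem' := h

theorem mem_locValuationSubring (Q : Ideal (integralClosure ℤ L)) [hQp : Q.IsPrime]
    (h : ∀ x : L, (∃ u s : integralClosure ℤ L, s ∉ Q ∧ x * (s : L) = (u : L)) ∨
      (∃ u s : integralClosure ℤ L, s ∉ Q ∧ x⁻¹ * (s : L) = (u : L))) (x : L) :
    x ∈ locValuationSubring Q h ↔
      ∃ u s : integralClosure ℤ L, s ∉ Q ∧ x * (s : L) = (u : L) := Iff.rfl

theorem mem_maximalIdeal_locValuationSubring (Q : Ideal (integralClosure ℤ L)) [hQp : Q.IsPrime]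
    (h : ∀ x : L, (∃ u s : integralClosure ℤ L, s ∉ Q ∧ x * (s : L) = (u : L)) ∨
      (∃ u s : integralClosure ℤ L, s ∉ Q ∧ x⁻¹ * (s : L) = (u : L)))
    (a : locValuationSubring Q h) (q t : integralClosure ℤ L) (hq : q ∈ Q) (ht : t ∉ Q)
    (hqt : (a : L) * (t : L) = (q : L)) :
    a ∈ IsLocalRing.maximalIdeal (locValuationSubring Q h) := by
  rw [IsLocalRing.mem_maximalIdeal, mem_nonunits_iff]
  intro hu
  obtain ⟨b, hb⟩ := hu.exists_right_inv
  obtain ⟨u, s, hs, hus⟩ := (mem_locValuationSubring Q h (b : L)).mp b.2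
  have hab : (a : L) * (b : L) = 1 := by
    have := congrArg (Subtype.val) hb
    simpa using this
  have hst : s * t ∈ Q := by
    have h1 : ((s * t : integralClosure ℤ L) : L) = ((u * q : integralClosure ℤ L) : L) := by
      push_cast
      rw [← hus, ← hqt]
      calc (s : L) * (t : L) = ((a : L) * (b : L)) * ((s : L) * (t : L)) := by rw [hab, one_mul]
        _ = (b : L) * (s : L) * ((a : L) * (t : L)) := by ring
    rw [Subtype.ext h1]
    exact Q.mul_mem_left _ hq
  exact (hQp.mem_or_mem hst).elim hs ht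

end Iterate

section Frob

open scoped Pointwise

attribute [local instance] Ideal.Quotient.field

theorem exists_isFrobeniusAt_aux {L : Type} [Field L] [Algebra ℚ L] [IsGalois ℚ L]
    (ℓ : ℕ) (hℓ : ℓ.Prime) :
    ∃ (A : ValuationSubring L) (σ : L ≃ₐ[ℚ] L),
      A.LiesOverPrime ℓ ∧ A.IsFrobeniusAt σ ℓ := by
  have hchar : CharZero L := algebraRat.charZero L
  have hprime : Prime (ℓ : ℤ) := Nat.prime_iff_prime_int.mp hℓ
  let P : Ideal ℤ := Ideal.span {(ℓ : ℤ)}
  have hPmax : P.IsMaximal := PrincipalIdealRing.isMaximal_of_irreducible hprime.irreducible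
  obtain ⟨Q, hQmax, hQP⟩ := Ideal.exists_ideal_over_maximal_of_isIntegral
    (S := integralClosure ℤ (L)) P (by
      rw [(RingHom.injective_iff_ker_eq_bot _).mp
        (FaithfulSMul.algebraMap_injective ℤ (integralClosure ℤ (L)))]
      exact bot_le)
  have := hQmax
  have hQp : Q.IsPrime := hQmax.isPrime
  have : Q.LiesOver P := ⟨hQP.symm⟩
  have h1Q : (1 : integralClosure ℤ (L)) ∉ Q :=
    fun h => hQp.ne_top (Q.eq_top_iff_one.mpr h)
  have hQℓ : ((ℓ : ℤ) : integralClosure ℤ (L)) ∈ Q := by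
    have : (ℓ : ℤ) ∈ Q.comap (algebraMap ℤ (integralClosure ℤ (L))) := by
      rw [hQP]
      exact Ideal.mem_span_singleton_self _
    simpa using this
  let : TopologicalSpace (integralClosure ℤ (L)) := ⊥
  have : DiscreteTopology (integralClosure ℤ (L)) := ⟨rfl⟩
  have : ContinuousSMul (L ≃ₐ[ℚ] L)
      (integralClosure ℤ (L)) := by
    rw [continuousSMul_iff_stabilizer_isOpen]
    intro b
    have := stabilizer_isOpen_of_isIntegral (K := ℚ) (L := L)
      (b : L)
    convert this using 1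
    ext g
    simp [MulAction.mem_stabilizer_iff, Subtype.ext_iff]
  have : Algebra.IsInvariant ℤ (integralClosure ℤ (L))
      (L ≃ₐ[ℚ] L) := by
    refine ⟨fun b hb => ?_⟩
    have hfix : (b : L) ∈
        IntermediateField.fixedField (⊤ : Subgroup (L ≃ₐ[ℚ] L)) := by
      rw [IntermediateField.mem_fixedField_iff]
      intro f _
      have := congrArg (Subtype.val) (hb f)
      simpa using this
    rw [InfiniteGalois.fixedField_bot, IntermediateField.mem_bot] at hfix
    obtain ⟨r, hr⟩ := hfix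
    have hint : IsIntegral ℤ r := by
      have h1 : IsIntegral ℤ (algebraMap ℚ (L) r) := by
        rw [hr]
        exact b.2
      exact (isIntegral_algebraMap_iff (FaithfulSMul.algebraMap_injective ℚ (L))).mp h1
    obtain ⟨n, hn⟩ := IsIntegrallyClosed.isIntegral_iff.mp hint
    refine ⟨n, Subtype.ext ?_⟩
    rw [← hr, ← hn]
    simp
  have : CharP (integralClosure ℤ (L) ⧸ Q) ℓ := by
    rw [CharP.charP_iff_prime_eq_zero hℓ]
    have : (Ideal.Quotient.mk Q ((ℓ : ℤ) : integralClosure ℤ (L))) = 0 :=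
      Ideal.Quotient.eq_zero_iff_mem.mpr hQℓ
    simpa using this
  have : ExpChar (integralClosure ℤ (L) ⧸ Q) ℓ := ExpChar.prime hℓ
  let φ : (integralClosure ℤ (L) ⧸ Q) →ₐ[ℤ ⧸ P]
      (integralClosure ℤ (L) ⧸ Q) :=
    { frobenius (integralClosure ℤ (L) ⧸ Q) ℓ with
      commutes' := by
        intro r
        obtain ⟨n, rfl⟩ := Ideal.Quotient.mk_surjective r
        have h1 : (Ideal.Quotient.mk P n) = ((n : ℤ) : ℤ ⧸ P) := eq_intCast _ n
        rw [h1, map_intCast]
        exact map_intCast (frobenius (integralClosure ℤ (L) ⧸ Q) ℓ) n }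
  have hφ : Function.Bijective φ := Algebra.IsAlgebraic.algHom_bijective φ
  obtain ⟨σ, hσ⟩ := Ideal.Quotient.stabilizerHom_surjective_of_profinite
    (G := L ≃ₐ[ℚ] L) P Q (AlgEquiv.ofBijective φ hφ)
  have key : ∀ b : integralClosure ℤ (L), (σ.1 • b) - b ^ ℓ ∈ Q := by
    intro b
    have h1 := congrArg (fun f => f (Ideal.Quotient.mk Q b)) hσ
    simp only [Ideal.Quotient.stabilizerHom_apply] at h1
    rw [← Ideal.Quotient.eq]
    rw [map_pow]
    exact h1
  have halg : ∀ x : L, IsAlgebraic ℤ x := fun x =>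
    (IsFractionRing.isAlgebraic_iff ℤ ℚ (L)).mpr
      (Algebra.IsAlgebraic.isAlgebraic x)
  have hval := fun x => exists_mul_eq_or Q ℓ hℓ hQℓ x (halg x)
  let A : ValuationSubring (L) := locValuationSubring Q hval
  have hstab : ∀ τ : L ≃ₐ[ℚ] L, τ • Q = Q →
      ∀ x : L, x ∈ A → τ x ∈ A := by
    intro τ hτ x hx
    obtain ⟨u, s, hs, hus⟩ := (mem_locValuationSubring Q hval x).mp hx
    refine (mem_locValuationSubring Q hval _).mpr ⟨τ • u, τ • s, ?_, ?_⟩
    · intro hmem
      apply hs
      rw [← hτ] at hmem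
      exact (Ideal.smul_mem_pointwise_smul_iff).mp hmem
    · show τ x * τ (s : L) = τ (u : L)
      rw [← map_mul, hus]
  have hσA : σ.1 ∈ A.decompositionSubgroup ℚ := by
    rw [MulAction.mem_stabilizer_iff]
    ext x
    rw [ValuationSubring.mem_pointwise_smul_iff_inv_smul_mem]
    constructor
    · intro hx
      have := hstab σ.1 σ.2 _ hx
      simpa using this
    · intro hx
      exact hstab σ.1⁻¹ (σ⁻¹).2 x hx
  have hℓA : (ℓ : L) ∈ A :=
    (mem_locValuationSubring Q hval _).mpr
      ⟨((ℓ : ℤ) : integralClosure ℤ (L)), 1, h1Q, by simp⟩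
  have hLies : A.LiesOverPrime ℓ := by
    have : (⟨(ℓ : L), hℓA⟩ : A) ∈ IsLocalRing.maximalIdeal A :=
      mem_maximalIdeal_locValuationSubring Q hval _
        ((ℓ : ℤ) : integralClosure ℤ (L)) 1 hQℓ h1Q (by simp)
    exact ValuationSubring.mem_nonunits_iff_exists_mem_maximalIdeal.mpr ⟨hℓA, this⟩
  refine ⟨A, σ.1, hLies, hσA, ?_⟩
  intro x
  obtain ⟨a, rfl⟩ := IsLocalRing.residue_surjective x
  rw [← IsLocalRing.ResidueField.residue_smul, ← map_pow]
  rw [← sub_eq_zero, ← map_sub, IsLocalRing.residue_eq_zero_iff]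
  obtain ⟨u, s, hs, hus⟩ := (mem_locValuationSubring Q hval _).mp a.2
  refine mem_maximalIdeal_locValuationSubring Q hval _
    ((σ.1 • u - u ^ ℓ) * s ^ ℓ - u ^ ℓ * (σ.1 • s - s ^ ℓ)) ((σ.1 • s) * s ^ ℓ) ?_ ?_ ?_
  · exact Q.sub_mem (Q.mul_mem_right _ (key u)) (Q.mul_mem_left _ (key s))
  · intro hmem
    rcases hQp.mem_or_mem hmem with h | h
    · apply hs
      have h2 := σ.2
      rw [MulAction.mem_stabilizer_iff] at h2
      have h3 : σ.1 • s ∈ σ.1 • Q := by
        rw [h2]
        exact h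
      exact (Ideal.smul_mem_pointwise_smul_iff).mp h3
    · exact hs (hQp.mem_of_pow_mem _ h)
  · have h1 : σ.1 (a : L) * σ.1 (s : L) =
        σ.1 (u : L) := by
      rw [← map_mul, hus]
    have h2 : (a : L) ^ ℓ * (s : L) ^ ℓ =
        (u : L) ^ ℓ := by
      rw [← mul_pow, hus]
    show (σ.1 (a : L) - (a : L) ^ ℓ) *
        (σ.1 (s : L) * (s : L) ^ ℓ) =
      (σ.1 (u : L) - (u : L) ^ ℓ) * (s : L) ^ ℓ -
        (u : L) ^ ℓ * (σ.1 (s : L) - (s : L) ^ ℓ)
    linear_combination (s : L) ^ ℓ * h1 - σ.1 (s : L) * h2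

theorem isAlgClosure_rat : IsAlgClosure ℚ (AlgebraicClosure ℚ) := by
  have h : (DivisionRing.toRatAlgebra : Algebra ℚ (AlgebraicClosure ℚ)) =
      AlgebraicClosure.instAlgebra ℚ := Subsingleton.elim _ _
  rw [h]
  infer_instance

theorem exists_isFrobeniusAt (ℓ : ℕ) (hℓ : ℓ.Prime) :
    ∃ (A : ValuationSubring (AlgebraicClosure ℚ))
      (σ : AlgebraicClosure ℚ ≃ₐ[ℚ] AlgebraicClosure ℚ),
      A.LiesOverPrime ℓ ∧ A.IsFrobeniusAt σ ℓ := by
  have := isAlgClosure_rat
  exact exists_isFrobeniusAt_aux ℓ hℓ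

end Frob

end

end Fermat.Agent.S54
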